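import Fermat.Agent.CarayolY.Desc
import Fermat.Agent.SSMod.RamN

/-!
# From functions over the algebraic closure to functions over the inertia field
-/

set_option autoImplicit false
set_option linter.unusedSectionVars false
set_option linter.style.haveILetI false
set_option synthInstance.maxHeartbeats 400000

noncomputable section

namespace Fermat.Agent.CarayolY

open ModularCurve AlgebraicCurve IntermediateField Fermat.Agent.GenusX0 Fermat.Agent.ModFun
open Fermat.Agent.AnJac Fermat.Agent.Curves Fermat.Agent.SSMod Fermat.Agent.PicFlat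
open Fermat.Agent.Carayol (normAlong bc inc exN K0 mem_K0 constF coe_bc bc_const CarayolCore
  CarayolK0)

local notation "FF" => Carayol.FF

section Ext

variable {k K : Type*} [Field k] [Field K] [IsAlgClosed K] [CharZero K] {N : ℕ} [NeZero N]
  [IsFunctionField K (FF K N)]

theorem exists_place_over (ψ : k →+* K) (hψ : ψ.IsIntegral) (V : ValuationSubring (FF k N))
    (hV : ∀ c, constF k N c ∈ V) (htop : V ≠ ⊤) :
    ∃ W : Place K (FF K N), ∀ x, bc ψ N x ∈ W.toValuationSubring ↔ x ∈ V := by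
  obtain ⟨A, h, hloc⟩ := IsLocalRing.exists_factor_valuationRing
    ((bc ψ N).comp V.subtype)
  have hcomap : ∀ x, bc ψ N x ∈ A ↔ x ∈ V := by
    intro x
    refine ⟨fun hx => ?_, fun hx => h ⟨x, hx⟩⟩
    by_contra hxv
    have hx0 : x ≠ 0 := fun h0 => hxv (h0 ▸ zero_mem _)
    have hxi : x⁻¹ ∈ V := (V.mem_or_inv_mem x).resolve_left hxv
    have hunit : IsUnit ((((bc ψ N).comp V.subtype).codRestrict
        A.toSubring h) ⟨x⁻¹, hxi⟩) := by
      refine isUnit_iff_exists_inv.mpr ⟨⟨bc ψ N x, hx⟩, Subtype.ext ?_⟩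
      change bc ψ N x⁻¹ * bc ψ N x = 1
      rw [← map_mul, inv_mul_cancel₀ hx0, map_one]
    have := hloc.map_nonunit _ hunit
    obtain ⟨b, hb⟩ := isUnit_iff_exists_inv.mp this
    have hb' : x⁻¹ * (b : FF k N) = 1 := congrArg Subtype.val hb
    have : (b : FF k N) = x := by
      field_simp at hb'
      exact hb'
    exact hxv (this ▸ b.2)
  have hconst : ∀ c : K, algebraMap K (FF K N) c ∈ A := by
    intro c
    have h1 : ∃ p : Polynomial k, p.Monic ∧ Polynomial.eval₂ ψ c p = 0 := hψ c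
    obtain ⟨p, hp, hpc⟩ := h1
    let φ : k →+* A := ((bc ψ N).comp (constF k N)).codRestrict A.toSubring
      (fun c => (hcomap _).mpr (hV c))
    have h2 : IsIntegral A (algebraMap K (FF K N) c) := by
      refine ⟨p.map φ, hp.map φ, ?_⟩
      rw [Polynomial.eval₂_map]
      have e : (algebraMap A (FF K N)).comp φ = (algebraMap K (FF K N)).comp ψ := by
        ext1 a
        exact bc_const ψ a
      rw [e, ← Polynomial.hom_eval₂, hpc, map_zero]
    obtain ⟨a, ha⟩ := IsIntegrallyClosed.isIntegral_iff.mp h2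
    rw [← ha]
    exact a.2
  obtain ⟨W, hW⟩ := exists_place_of_valuationSubring (k := K) A hconst (by
    intro h0
    apply htop
    ext x
    refine ⟨fun _ => ValuationSubring.mem_top x, fun _ => ?_⟩
    rw [← hcomap, h0]
    exact ValuationSubring.mem_top _)
  exact ⟨W, fun x => by rw [hW]; exact hcomap x⟩

/-- The local condition over `k` follows from that over `K`. -/
theorem exists_local (ψ : k →+* K) (hψ : ψ.IsIntegral) (S : Set (K ≃+* K))
    (hfix : ∀ c : k, ∀ σ ∈ S, σ (ψ c) = ψ c)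
    (hdesc : ∀ x : FF K N, (∀ σ ∈ S, galF N σ x = x) → ∃ y, bc ψ N y = x)
    (V : ValuationSubring (FF k N)) (hV : ∀ c, constF k N c ∈ V) (htop : V ≠ ⊤) {m : ℕ}
    {u : FF k N} (hu : u ≠ 0) (hord : ∀ v : Place K (FF K N), (m : ℤ) ∣ v.ord (bc ψ N u)) :
    ∃ y : FF k N, y ≠ 0 ∧ u * y ^ m ∈ V ∧ (u * y ^ m)⁻¹ ∈ V := by
  obtain ⟨W, hW⟩ := exists_place_over ψ hψ V hV htop
  obtain ⟨x, hx⟩ : ∃ x, x ∉ V := by
    by_contra! h
    exact htop (SetLike.ext fun x => ⟨fun _ => ValuationSubring.mem_top x, fun _ => h x⟩)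
  have hx0 : x ≠ 0 := fun h0 => hx (h0 ▸ zero_mem _)
  have hbx0 : bc ψ N x ≠ 0 := (map_ne_zero _).mpr hx0
  have hbfix : ∀ z : FF k N, ∀ σ ∈ S, galF N σ (bc ψ N z) = bc ψ N z := by
    intro z σ hσ
    apply Subtype.ext
    rw [coe_galF, coe_bc]
    ext n
    rw [coeffMap_coeff, coeffMap_coeff]
    exact hfix _ σ hσ
  have hWx : W.ord (bc ψ N x) < 0 := by
    by_contra hge
    exact hx ((hW x).mp ((mem_iff_ord W hbx0).mpr (not_lt.mp hge)))
  obtain ⟨y, hy0, hyS, hyW⟩ := exists_fixed_unif S W hbx0 (hbfix x) hWx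
  obtain ⟨y', rfl⟩ := hdesc y hyS
  have hy'0 : y' ≠ 0 := by
    rintro rfl
    exact hy0 (map_zero _)
  obtain ⟨t, ht⟩ := hord W
  have hbu0 : bc ψ N u ≠ 0 := (map_ne_zero _).mpr hu
  have hz0 : u * (y' ^ (-t)) ^ m ≠ 0 := mul_ne_zero hu (pow_ne_zero _ (zpow_ne_zero _ hy'0))
  have h1 : W.ord (bc ψ N (u * (y' ^ (-t)) ^ m)) = 0 := by
    rw [map_mul, map_pow, map_zpow₀, W.ord_mul hbu0 (pow_ne_zero _ (zpow_ne_zero _ hy0)), ord_pow,
      W.ord_zpow, hyW, ht]
    ring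
  refine ⟨y' ^ (-t), zpow_ne_zero _ hy'0, ?_, ?_⟩
  · rw [← hW, mem_iff_ord W ((map_ne_zero _).mpr hz0), h1]
  · rw [← hW, mem_iff_ord W ((map_ne_zero _).mpr (inv_ne_zero hz0)), map_inv₀, W.ord_inv, h1,
      neg_zero]

end Ext

local notation "Qb" => AlgebraicClosure ℚ

theorem exists_descent (A : ValuationSubring Qb) {N : ℕ} [NeZero N] (x : FF Qb N)
    (hx : ∀ σ ∈ A.inertiaSubgroupIn ℚ, galF N (σ : Qb ≃+* Qb) x = x) :
    ∃ y, bc (algebraMap (K0 A) Qb) N y = x := by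
  letI : Algebra (K0 A) ℂ := (ιQ.comp (algebraMap (K0 A) Qb)).toAlgebra
  have hcoef : ∀ i, (x : LaurentSeries Qb).coeff i ∈ K0 A := by
    intro i
    rw [mem_K0]
    intro σ hσ
    have h1 := congrArg (fun z : FF Qb N => (z : LaurentSeries Qb).coeff i) (hx σ hσ)
    rw [coe_galF, coeffMap_coeff] at h1
    exact h1
  obtain ⟨w, hw⟩ := exists_coeffMap_eq (algebraMap (K0 A) ℂ)
    (w := coeffMap ιQ (x : LaurentSeries Qb)) (fun i => ⟨⟨_, hcoef i⟩, by
      rw [coeffMap_coeff]; rfl⟩)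
  have hmem : w ∈ modularFunctionFieldFullC (K0 A) N := by
    apply mem_of_coeffs
    rw [hw]
    exact coeffMap_mem_FF ιQ x.2
  refine ⟨⟨w, hmem⟩, ?_⟩
  apply Subtype.ext
  rw [coe_bc]
  apply Fermat.Agent.AnJac.coeffMap_injective ιQ
  rw [← hw, coeffMap_coeffMap]
  rfl

theorem normAlong_mul {E F : Type*} [Field E] [Field F] (f : E →+* F) (u v : F) :
    normAlong f (u * v) = normAlong f u * normAlong f v := by
  letI := f.toAlgebra
  exact map_mul (Algebra.norm E) u v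

theorem normAlong_pow {E F : Type*} [Field E] [Field F] (f : E →+* F) (u : F) (n : ℕ) :
    normAlong f (u ^ n) = normAlong f u ^ n := by
  letI := f.toAlgebra
  exact map_pow (Algebra.norm E) u n

theorem carayolCore_of (H : CarayolK0) : CarayolCore := by
  intro q M' N _ _ _ hq hcop h4 h9 hN h1 h2 A hA
  obtain ⟨C, hC, HC⟩ := H q M' N hq hcop h4 h9 hN h1 h2 A hA
  refine ⟨C, hC, fun m hm hqm u hu hord hinv hn1 hn2 => ?_⟩
  haveI : IsFunctionField Qb (FF Qb N) :=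
    isFunctionField_fullC Qb N (by exact_mod_cast NeZero.ne N)
  -- a rational representative
  obtain ⟨m', g, hg, hcan⟩ := exists_isCan hm.ne' hu hord
  set w : FF Qb N := u * g ^ m with hw
  have hwfix : ∀ σ ∈ A.inertiaSubgroupIn ℚ, galF N (σ : Qb ≃+* Qb) w = w := by
    intro σ hσ
    obtain ⟨h, hh0, hh⟩ := hinv σ hσ
    have hσg : galF N (σ : Qb ≃+* Qb) g ≠ 0 := (map_ne_zero _).mpr hg
    refine hcan.unique hm.ne' (hcan.galF _) (g := h * galF N (σ : Qb ≃+* Qb) g * g⁻¹)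
      (mul_ne_zero (mul_ne_zero hh0 hσg) (inv_ne_zero hg)) ?_
    rw [hw, map_mul, map_pow, hh, mul_pow, mul_pow, inv_pow]
    field_simp
  obtain ⟨w₀, hw₀⟩ := exists_descent A w hwfix
  have hw₀0 : w₀ ≠ 0 := by
    rintro rfl
    rw [map_zero] at hw₀
    exact hcan.ne hw₀.symm
  have hloc : ∀ V : ValuationSubring (FF (K0 A) N), (∀ c : K0 A, constF (K0 A) N c ∈ V) →
      V ≠ ⊤ → ∃ y : FF (K0 A) N, y ≠ 0 ∧ w₀ * y ^ m ∈ V ∧ (w₀ * y ^ m)⁻¹ ∈ V := by
    intro V hV htop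
    refine exists_local (algebraMap (K0 A) Qb)
      (fun c => (Algebra.IsIntegral.isIntegral (R := K0 A) c : _))
      {σ | ∃ τ ∈ A.inertiaSubgroupIn ℚ, (τ : Qb ≃+* Qb) = σ} ?_ ?_ V hV htop hw₀0 ?_
    · rintro c _ ⟨τ, hτ, rfl⟩
      exact (mem_K0 A).mp c.2 τ hτ
    · intro x hx
      exact exists_descent A x fun σ hσ => hx _ ⟨σ, hσ, rfl⟩
    · intro v
      rw [hw₀]
      exact hcan.dvd v
  have hN1 : ∃ n : FF Qb (q * M'),
      normAlong (inc Qb h1) (bc (algebraMap (K0 A) Qb) N w₀) = n ^ m := by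
    obtain ⟨n, hn⟩ := hn1
    refine ⟨n * normAlong (inc Qb h1) g, ?_⟩
    rw [hw₀, hw, normAlong_mul, normAlong_pow, hn, mul_pow]
  have hN2 : ∃ n : FF Qb (q * M'),
      normAlong (exN Qb q h2) (bc (algebraMap (K0 A) Qb) N w₀) = n ^ m := by
    obtain ⟨n, hn⟩ := hn2
    refine ⟨n * normAlong (exN Qb q h2) g, ?_⟩
    rw [hw₀, hw, normAlong_mul, normAlong_pow, hn, mul_pow]
  obtain ⟨c, hc, x, hx, hcx⟩ := HC m hm hqm w₀ hw₀0 hloc hN1 hN2
  have hψc : algebraMap (K0 A) Qb c ≠ 0 := (map_ne_zero _).mpr hc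
  obtain ⟨d, hd⟩ := IsAlgClosed.exists_pow_nat_eq (algebraMap (K0 A) Qb c) hm
  have hd0 : d ≠ 0 := by
    rintro rfl
    rw [zero_pow hm.ne'] at hd
    exact hψc hd.symm
  have e := congrArg (bc (algebraMap (K0 A) Qb) N) hcx
  rw [map_pow, map_mul, map_pow, hw₀] at e
  have e2 : bc (algebraMap (K0 A) Qb) N (constF (K0 A) N c) = algebraMap Qb (FF Qb N) d ^ m := by
    rw [← map_pow, hd]
    exact bc_const _ c
  have hd0' : algebraMap Qb (FF Qb N) d ≠ 0 := (map_ne_zero _).mpr hd0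
  have hx0' : bc (algebraMap (K0 A) Qb) N x ≠ 0 := (map_ne_zero _).mpr hx
  rw [e2, hw] at e
  refine ⟨algebraMap Qb (FF Qb N) d * bc (algebraMap (K0 A) Qb) N x * (g ^ C)⁻¹,
    mul_ne_zero (mul_ne_zero hd0' hx0') (inv_ne_zero (pow_ne_zero _ hg)), ?_⟩
  have e3 : (g ^ m) ^ C = (g ^ C) ^ m := by rw [← pow_mul, ← pow_mul, mul_comm]
  rw [mul_pow, e3] at e
  rw [mul_pow, mul_pow, inv_pow, ← e, mul_assoc, mul_inv_cancel₀ (pow_ne_zero _ (pow_ne_zero _ hg)),
    mul_one]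

end Fermat.Agent.CarayolY
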