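import Fermat.Agent.Carayol.Interface
import Fermat.Agent.PicFlat.RRDim
import Fermat.Agent.SSMod.Act
import Fermat.Agent.AnJac.Descent

/-!
# Galois descent of functions, and uniformizers fixed by inertia
-/

set_option autoImplicit false
set_option linter.unusedSectionVars false
set_option linter.style.haveILetI false
set_option linter.unusedVariables false
set_option synthInstance.maxHeartbeats 400000

noncomputable section

namespace Fermat.Agent.CarayolY

open ModularCurve AlgebraicCurve IntermediateField Fermat.Agent.GenusX0 Fermat.Agent.ModFun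
open Fermat.Agent.AnJac Fermat.Agent.Curves Fermat.Agent.SSMod Fermat.Agent.PicFlat

/-- semilinear descent for a finite dimensional space with enough coordinates -/
theorem mem_span_fixed {K V ι : Type*} [Field K] [AddCommGroup V] [Module K V]
    [FiniteDimensional K V] (c : ι → Module.Dual K V) (hc : ∀ v, (∀ i, c i v = 0) → v = 0)
    (S : Set (V → V)) (hS : ∀ T ∈ S, ∃ σ : K → K, σ 0 = 0 ∧ σ 1 = 1 ∧
      ∀ i v, c i (T v) = σ (c i v)) (v : V) :
    v ∈ Submodule.span K {y | ∀ T ∈ S, T y = y} := by
  classical
  have hspan : Submodule.span K (Set.range c) = ⊤ := by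
    have h1 : (Submodule.span K (Set.range c)).dualCoannihilator = ⊥ := by
      rw [eq_bot_iff]
      intro x hx
      rw [Submodule.mem_dualCoannihilator] at hx
      rw [Submodule.mem_bot]
      exact hc x fun i => hx _ (Submodule.subset_span ⟨i, rfl⟩)
    have h2 := Subspace.dualCoannihilator_dualAnnihilator_eq (W := Submodule.span K (Set.range c))
    rw [← h2, h1, Submodule.dualAnnihilator_bot]
  set B := Module.Basis.ofSpan hspan.ge with hB
  have hBc : ∀ j, ∃ i, B j = c i := by
    intro j
    have h1 : B j ∈ Set.range c := Module.Basis.ofSpan_subset hspan.ge ⟨j, rfl⟩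
    obtain ⟨i, hi⟩ := h1
    exact ⟨i, hi.symm⟩
  haveI : Finite ((linearIndepOn_empty K id).extend (Set.empty_subset (Set.range c))) :=
    Module.Finite.finite_basis B
  have hsep : ∀ x y : V, (∀ j, B j x = B j y) → x = y := by
    intro x y h
    rw [← sub_eq_zero]
    apply hc
    intro i
    have h1 : ∀ φ ∈ Submodule.span K (Set.range B), φ (x - y) = 0 := by
      intro φ hφ
      induction hφ using Submodule.span_induction with
      | mem φ hφ =>
        obtain ⟨j, rfl⟩ := hφ
        rw [map_sub, h j, sub_self]
      | zero => rfl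
      | add φ ψ _ _ h1 h2 => rw [LinearMap.add_apply, h1, h2, add_zero]
      | smul a φ _ h1 => rw [LinearMap.smul_apply, h1, smul_zero]
    apply h1
    rw [B.span_eq]
    trivial
  let w : ((linearIndepOn_empty K id).extend (Set.empty_subset (Set.range c))) → V :=
    fun j => (Module.evalEquiv K V).symm (B.dualBasis j)
  have hw : ∀ i j, B i (w j) = if j = i then 1 else 0 := by
    intro i j
    have h1 : Module.evalEquiv K V (w j) = B.dualBasis j := (Module.evalEquiv K V).apply_symm_apply _
    have h2 := LinearMap.congr_fun h1 (B i)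
    rw [Module.Basis.dualBasis_apply_self] at h2
    rw [Module.evalEquiv_apply] at h2
    rw [Module.Dual.eval_apply] at h2
    rw [h2]
    exact if_congr eq_comm rfl rfl
  have hfix : ∀ j, ∀ T ∈ S, T (w j) = w j := by
    intro j T hT
    obtain ⟨σ, h0, h1, h⟩ := hS T hT
    apply hsep
    intro i
    obtain ⟨i', hi'⟩ := hBc i
    rw [hi', h, ← hi', hw]
    split_ifs
    · exact h1
    · exact h0
  haveI := Fintype.ofFinite ((linearIndepOn_empty K id).extend (Set.empty_subset (Set.range c)))
  have hv : v = ∑ j, B j v • w j := by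
    apply hsep
    intro i
    rw [map_sum]
    simp only [map_smul, hw, smul_eq_mul, mul_ite, mul_one, mul_zero, Finset.sum_ite_eq',
      Finset.mem_univ, if_true]
  rw [hv]
  exact Submodule.sum_mem _ fun j _ => Submodule.smul_mem _ _ (Submodule.subset_span (hfix j))

section

variable {K : Type*} [Field K] [IsAlgClosed K] [CharZero K] {N : ℕ} [NeZero N]
  [IsFunctionField K (modularFunctionFieldFullC K N)]

/-- base point freeness by functions fixed by a set of automorphisms of the constants -/
theorem exists_fixed_ord {g c : ℤ} (h : RR K (modularFunctionFieldFullC K N) g c)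
    (S : Set (K ≃+* K)) {D : Divisor K (modularFunctionFieldFullC K N)}
    (hD : ∀ σ ∈ S, ∀ P, D (placeE N σ P) = D P) (hdeg : c + 1 ≤ Divisor.degree D)
    (W : Place K (modularFunctionFieldFullC K N)) :
    ∃ f : modularFunctionFieldFullC K N, f ≠ 0 ∧ (∀ σ ∈ S, galF N σ f = f) ∧ W.ord f = -D W := by
  classical
  obtain ⟨f, hf, hf0, hfW⟩ := h.bpf hdeg W
  -- the action on the Riemann-Roch space
  have hmem : ∀ σ ∈ S, ∀ x ∈ riemannRochSpace D, galF N σ x ∈ riemannRochSpace D := by
    intro σ hσ x hx
    rcases eq_or_ne x 0 with rfl | hx0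
    · rw [map_zero]; exact Submodule.zero_mem _
    rw [mem_iff_of_ne ((map_ne_zero _).mpr hx0)]
    intro v
    obtain ⟨v', rfl⟩ := (placeE N σ).surjective v
    rw [placeE_ord, hD σ hσ]
    exact (mem_iff_of_ne hx0).1 hx v'
  let cf : ℤ → Module.Dual K (riemannRochSpace D) := fun i =>
    { toFun := fun x => ((x : modularFunctionFieldFullC K N) : LaurentSeries K).coeff i
      map_add' := fun x y => rfl
      map_smul' := fun a x => by
        change (((a • (x : modularFunctionFieldFullC K N)) : modularFunctionFieldFullC K N) :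
          LaurentSeries K).coeff i = _
        rw [IntermediateField.coe_smul, Algebra.smul_def, ← C_eq_algebraMap,
          HahnSeries.C_mul_eq_smul]
        rfl }
  have hcf : ∀ v, (∀ i, cf i v = 0) → v = 0 := by
    intro v hv
    apply Subtype.ext
    apply Subtype.ext
    ext i
    exact hv i
  let act : S → (riemannRochSpace D → riemannRochSpace D) := fun σ x =>
    ⟨galF N σ.1 x, hmem σ.1 σ.2 x x.2⟩
  have hspan := mem_span_fixed cf hcf (Set.range act) (by
    rintro _ ⟨σ, rfl⟩
    refine ⟨σ.1, map_zero _, map_one _, fun i v => ?_⟩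
    change ((galF N σ.1 (v : modularFunctionFieldFullC K N) : modularFunctionFieldFullC K N) :
      LaurentSeries K).coeff i = _
    rw [coe_galF, coeffMap_coeff]
    rfl) ⟨f, hf⟩
  by_contra hcon
  push Not at hcon
  have key : ∀ x ∈ Submodule.span K {y : riemannRochSpace D | ∀ T ∈ Set.range act, T y = y},
      (x : modularFunctionFieldFullC K N) ≠ 0 → -D W < W.ord (x : modularFunctionFieldFullC K N) := by
    intro x hx
    induction hx using Submodule.span_induction with
    | mem x hx =>
      intro hx0
      have h1 : ∀ σ ∈ S, galF N σ (x : modularFunctionFieldFullC K N) = x := by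
        intro σ hσ
        exact congrArg Subtype.val (hx (act ⟨σ, hσ⟩) ⟨_, rfl⟩)
      have h2 := hcon x hx0 h1
      have h3 := (mem_iff_of_ne hx0).1 x.2 W
      omega
    | zero => intro h; exact absurd rfl h
    | add x y _ _ h1 h2 =>
      intro hxy
      rcases eq_or_ne (x : modularFunctionFieldFullC K N) 0 with hx0 | hx0
      · have e : ((x + y : riemannRochSpace D) : modularFunctionFieldFullC K N) = y := by
          rw [Submodule.coe_add, hx0, zero_add]
        rw [e] at hxy ⊢
        exact h2 hxy
      rcases eq_or_ne (y : modularFunctionFieldFullC K N) 0 with hy0 | hy0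
      · have e : ((x + y : riemannRochSpace D) : modularFunctionFieldFullC K N) = x := by
          rw [Submodule.coe_add, hy0, add_zero]
        rw [e] at hxy ⊢
        exact h1 hxy
      · have h3 := ord_add W (f := (x : modularFunctionFieldFullC K N)) (g := y) hxy hx0 hy0
        exact lt_of_lt_of_le (lt_min (h1 hx0) (h2 hy0)) h3
    | smul a x _ h1 =>
      intro hx0
      have ha : a ≠ 0 := by
        rintro rfl
        apply hx0
        rw [zero_smul]
        rfl
      have hx1 : (x : modularFunctionFieldFullC K N) ≠ 0 := by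
        intro h0
        apply hx0
        rw [Submodule.coe_smul, h0, smul_zero]
      have ha' : algebraMap K (modularFunctionFieldFullC K N) a ≠ 0 := by
        rw [Ne, map_eq_zero]; exact ha
      rw [Submodule.coe_smul, Algebra.smul_def, W.ord_mul ha' hx1, ord_algebraMap, zero_add]
      exact h1 hx1
  have := key _ hspan hf0
  change -D W < W.ord f at this
  omega

/-- uniformizers fixed by a set of automorphisms of the constants -/
theorem exists_fixed_unif (S : Set (K ≃+* K)) (W : Place K (modularFunctionFieldFullC K N))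
    {x : modularFunctionFieldFullC K N} (hx0 : x ≠ 0) (hx : ∀ σ ∈ S, galF N σ x = x)
    (hWx : W.ord x < 0) :
    ∃ y : modularFunctionFieldFullC K N, y ≠ 0 ∧ (∀ σ ∈ S, galF N σ y = y) ∧ W.ord y = 1 := by
  classical
  obtain ⟨g, c, hRR⟩ := exists_RR (k := K) (F := modularFunctionFieldFullC K N)
  set E : Divisor K (modularFunctionFieldFullC K N) := poleDivisor x with hE
  have hEW : ∀ P, E P = max 0 (-P.ord x) := fun P => poleDivisor_apply _ _
  have hE0 : 0 ≤ E := poleDivisor_nonneg _
  have hordx : ∀ σ ∈ S, ∀ P, (placeE N σ P).ord x = P.ord x := by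
    intro σ hσ P
    conv_lhs => rw [← hx σ hσ]
    exact placeE_ord σ P x
  have hEdeg : 1 ≤ Divisor.degree E := by
    have h1 := apply_le_degree hE0 W
    rw [hEW] at h1
    have h2 := le_max_right 0 (-W.ord x)
    omega
  -- the places with the same order
  have hfin : {P : Place K (modularFunctionFieldFullC K N) | P.ord x = W.ord x}.Finite := by
    refine (divisorOf (k := K) x).support.finite_toSet.subset ?_
    intro P hP
    rw [Finset.mem_coe, Finsupp.mem_support_iff, divisorOf_apply]
    have : P.ord x = W.ord x := hP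
    omega
  set O : Divisor K (modularFunctionFieldFullC K N) := Finsupp.onFinset hfin.toFinset
    (fun P => if P.ord x = W.ord x then 1 else 0) (by
      intro P hP
      rw [Set.Finite.mem_toFinset]
      by_contra h
      exact hP (if_neg h)) with hO
  have hOP : ∀ P, O P = if P.ord x = W.ord x then 1 else 0 := fun P => rfl
  obtain ⟨n, hn⟩ : ∃ n : ℕ, c + 1 + |Divisor.degree O| ≤ n * Divisor.degree E := by
    refine ⟨(c + 1 + |Divisor.degree O|).toNat, ?_⟩
    have h1 := Int.self_le_toNat (c + 1 + |Divisor.degree O|)
    nlinarith [Int.natCast_nonneg (c + 1 + |Divisor.degree O|).toNat]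
  have habs := le_abs_self (Divisor.degree O)
  have habs0 := abs_nonneg (Divisor.degree O)
  obtain ⟨f₁, h10, h1S, h1W⟩ := exists_fixed_ord hRR S (D := n • E - O) (by
    intro σ hσ P
    rw [Finsupp.sub_apply, Finsupp.sub_apply, Finsupp.smul_apply, Finsupp.smul_apply, hEW, hEW,
      hOP, hOP, hordx σ hσ]) (by
    rw [map_sub, map_nsmul, nsmul_eq_mul]; linarith) W
  obtain ⟨f₂, h20, h2S, h2W⟩ := exists_fixed_ord hRR S (D := n • E) (by
    intro σ hσ P
    rw [Finsupp.smul_apply, Finsupp.smul_apply, hEW, hEW, hordx σ hσ]) (by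
    rw [map_nsmul, nsmul_eq_mul]; linarith) W
  refine ⟨f₁ * f₂⁻¹, mul_ne_zero h10 (inv_ne_zero h20), fun σ hσ => ?_, ?_⟩
  · rw [map_mul, map_inv₀, h1S σ hσ, h2S σ hσ]
  · rw [W.ord_mul h10 (inv_ne_zero h20), W.ord_inv, h1W, h2W, Finsupp.sub_apply, hOP,
      if_pos rfl]
    ring

end

end Fermat.Agent.CarayolY
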